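import Mathlib

/-!
# S18 helper (helper738): two-chart connectedness over a base ring (piece b5)

Pure commutative algebra, Mathlib only.

Situation: a commutative ring `R` ("functions on the overlap `U₁ ∩ U₂`"), two subrings
`R₁ R₂` ("functions on the charts `U₁`, `U₂`"), an element `π` lying in both charts.
`R₁ ⊓ R₂` are the global functions.

* `lift_idem` : idempotents mod `π` lift to idempotents mod `π ^ n` (elementwise Newton).
* `idem_unique` : two idempotents mod `π ^ n` congruent mod `π` are congruent mod `π ^ n`.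
* `exists_global_of_idem` : **connectedness**.  If the Čech `H¹ = R / (R₁ + R₂)` has bounded
  `π`-power torsion, then any pair of elements `e₁ ∈ R₁`, `e₂ ∈ R₂`, idempotent mod `π` on their
  charts and congruent mod `π` on the overlap, is congruent mod `π` to a *global* function
  `a ∈ R₁ ⊓ R₂`.
* `boundedTorsion_of_finite` : bounded torsion from finite generation of `H¹` over a noetherian
  base ring.
* `finite_cech_of_charts` : finite generation of `H¹` for the standard two charts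
  `x ≠ ∞`, `x ≠ 0` (modules finite over `A[x]` resp. `A[x⁻¹]`).
-/

set_option autoImplicit false

namespace Fermat.Agent.S18.H738

section Idem

variable {S : Type*} [CommRing S]

/-- One Newton step `e ↦ 3 e² - 2 e³` doubles the precision of an approximate idempotent. -/
theorem newton_idem_step (e : S) :
    (3 * e ^ 2 - 2 * e ^ 3) ^ 2 - (3 * e ^ 2 - 2 * e ^ 3)
      = (e ^ 2 - e) ^ 2 * (-((3 - 2 * e) * (2 * e + 1))) := by
  ring

theorem newton_idem_sub (e : S) :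
    (3 * e ^ 2 - 2 * e ^ 3) - e = (e ^ 2 - e) * (-(2 * e - 1)) := by
  ring

/-- Idempotents mod `π` lift to idempotents mod `π ^ n`, for every `n ≥ 1`. -/
theorem lift_idem (π e : S) (he : ∃ s, e ^ 2 - e = π * s) (n : ℕ) (hn : 1 ≤ n) :
    ∃ e' : S, (∃ s, e' ^ 2 - e' = π ^ n * s) ∧ ∃ t, e' - e = π * t := by
  induction n, hn using Nat.le_induction with
  | base =>
    obtain ⟨s, hs⟩ := he
    exact ⟨e, ⟨s, by rw [pow_one]; exact hs⟩, ⟨0, by ring⟩⟩
  | succ n hn ih =>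
    obtain ⟨e', ⟨s, hs⟩, ⟨t, ht⟩⟩ := ih
    refine ⟨3 * e' ^ 2 - 2 * e' ^ 3, ⟨π ^ (n - 1) * s ^ 2 * (-((3 - 2 * e') * (2 * e' + 1))), ?_⟩,
      ⟨π ^ (n - 1) * s * (-(2 * e' - 1)) + t, ?_⟩⟩
    · rw [newton_idem_step, hs]
      obtain ⟨k, rfl⟩ : ∃ k, n = k + 1 := ⟨n - 1, by omega⟩
      simp only [Nat.add_sub_cancel]
      ring
    · have : (3 * e' ^ 2 - 2 * e' ^ 3) - e = ((3 * e' ^ 2 - 2 * e' ^ 3) - e') + (e' - e) := by ring
      rw [this, newton_idem_sub, hs, ht]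
      obtain ⟨k, rfl⟩ : ∃ k, n = k + 1 := ⟨n - 1, by omega⟩
      simp only [Nat.add_sub_cancel]
      ring

/-- Key identity for uniqueness of idempotent lifts. -/
theorem idem_cube_identity (e e' : S) :
    e - e' = (e - e') ^ 3
      - ((e ^ 2 - e) * (1 + e - 3 * e') + (e' ^ 2 - e') * (3 * e - 1 - e')) := by
  ring

/-- Two idempotents mod `π ^ n` which are congruent mod `π` are congruent mod `π ^ n`. -/
theorem idem_unique (π e e' : S) (n : ℕ) (he : ∃ s, e ^ 2 - e = π ^ n * s)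
    (he' : ∃ s, e' ^ 2 - e' = π ^ n * s) (h : ∃ t, e - e' = π * t) :
    ∃ u, e - e' = π ^ n * u := by
  obtain ⟨s, hs⟩ := he
  obtain ⟨s', hs'⟩ := he'
  have key : ∀ j : ℕ, j ≤ n → 1 ≤ j → ∃ u, e - e' = π ^ j * u := by
    intro j hj hj1
    induction j, hj1 using Nat.le_induction with
    | base =>
      obtain ⟨t, ht⟩ := h
      exact ⟨t, by rw [pow_one]; exact ht⟩
    | succ j hj1 ih =>
      obtain ⟨u, hu⟩ := ih (by omega)
      obtain ⟨d, hd⟩ : ∃ d, n = (j + 1) + d := ⟨n - (j + 1), by omega⟩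
      obtain ⟨c, hc⟩ : ∃ c, 3 * j = (j + 1) + c := ⟨3 * j - (j + 1), by omega⟩
      refine ⟨π ^ c * u ^ 3
        - π ^ d * (s * (1 + e - 3 * e') + s' * (3 * e - 1 - e')), ?_⟩
      have h3 : (e - e') ^ 3 = π ^ (j + 1) * (π ^ c * u ^ 3) := by
        rw [hu, mul_pow, ← pow_mul, mul_comm j 3, hc, pow_add]
        ring
      have hn' : π ^ n = π ^ (j + 1) * π ^ d := by rw [hd, pow_add]
      calc e - e' = (e - e') ^ 3
            - ((e ^ 2 - e) * (1 + e - 3 * e') + (e' ^ 2 - e') * (3 * e - 1 - e')) :=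
              idem_cube_identity e e'
        _ = π ^ (j + 1) * (π ^ c * u ^ 3
            - π ^ d * (s * (1 + e - 3 * e') + s' * (3 * e - 1 - e'))) := by
              rw [h3, hs, hs', hn']
              ring
  rcases Nat.eq_zero_or_pos n with hn | hn
  · subst hn
    exact ⟨e - e', by simp⟩
  · exact key n le_rfl hn

end Idem

section Connected

variable {R : Type*} [CommRing R]

/-- **Two-chart connectedness.**  `R₁`, `R₂` are the rings of functions on two charts, inside the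
ring `R` of functions on the overlap.  Suppose the `π`-power torsion of the Čech cohomology
`R / (R₁ + R₂)` is killed by `π ^ c`.  Then a pair of "idempotents of the special fibre"
(`e₁ ∈ R₁`, `e₂ ∈ R₂`, idempotent mod `π` in their charts, agreeing mod `π` on the overlap) is
congruent mod `π` to a global function `a ∈ R₁ ⊓ R₂`. -/
theorem exists_global_of_idem (R₁ R₂ : Subring R) (π : R) (hπ₁ : π ∈ R₁) (hπ₂ : π ∈ R₂)
    (c : ℕ)
    (hH : ∀ (n : ℕ) (d : R), (∃ b₁ ∈ R₁, ∃ b₂ ∈ R₂, π ^ n * d = b₁ + b₂) →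
      ∃ b₁ ∈ R₁, ∃ b₂ ∈ R₂, π ^ c * d = b₁ + b₂)
    (e₁ e₂ : R) (he₁ : e₁ ∈ R₁) (he₂ : e₂ ∈ R₂)
    (h₁ : ∃ s ∈ R₁, e₁ ^ 2 - e₁ = π * s) (h₂ : ∃ s ∈ R₂, e₂ ^ 2 - e₂ = π * s)
    (h₁₂ : ∃ t : R, e₁ - e₂ = π * t) :
    ∃ a : R, a ∈ R₁ ∧ a ∈ R₂ ∧ (∃ s ∈ R₁, a - e₁ = π * s) ∧ (∃ s ∈ R₂, a - e₂ = π * s) := by
  -- lift in the chart `R₁`
  obtain ⟨s₁, hs₁, hs₁'⟩ := h₁
  obtain ⟨s₂, hs₂, hs₂'⟩ := h₂
  obtain ⟨t, ht⟩ := h₁₂
  obtain ⟨f₁, ⟨u₁, hu₁⟩, ⟨t₁, ht₁⟩⟩ :=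
    lift_idem (S := R₁) ⟨π, hπ₁⟩ ⟨e₁, he₁⟩ ⟨⟨s₁, hs₁⟩, Subtype.ext (by simpa using hs₁')⟩
      (c + 1) (by omega)
  obtain ⟨f₂, ⟨u₂, hu₂⟩, ⟨t₂, ht₂⟩⟩ :=
    lift_idem (S := R₂) ⟨π, hπ₂⟩ ⟨e₂, he₂⟩ ⟨⟨s₂, hs₂⟩, Subtype.ext (by simpa using hs₂')⟩
      (c + 1) (by omega)
  have hu₁' : (f₁ : R) ^ 2 - f₁ = π ^ (c + 1) * u₁ := by
    simpa using congrArg Subtype.val hu₁
  have hu₂' : (f₂ : R) ^ 2 - f₂ = π ^ (c + 1) * u₂ := by
    simpa using congrArg Subtype.val hu₂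
  have ht₁' : (f₁ : R) - e₁ = π * t₁ := by simpa using congrArg Subtype.val ht₁
  have ht₂' : (f₂ : R) - e₂ = π * t₂ := by simpa using congrArg Subtype.val ht₂
  -- uniqueness on the overlap
  obtain ⟨d, hd⟩ := idem_unique π (f₁ : R) (f₂ : R) (c + 1) ⟨_, hu₁'⟩ ⟨_, hu₂'⟩
    ⟨t₁ - t₂ + t, by
      have : (f₁ : R) - f₂ = ((f₁ : R) - e₁) - ((f₂ : R) - e₂) + (e₁ - e₂) := by ring
      rw [this, ht₁', ht₂', ht]; ring⟩
  -- the Čech class of `d` is torsion, hence killed by `π ^ c`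
  obtain ⟨b₁, hb₁, b₂, hb₂, hb⟩ := hH (c + 1) d
    ⟨f₁, f₁.2, -f₂, R₂.neg_mem f₂.2, by rw [← hd]; ring⟩
  have hglob : (f₁ : R) - π * b₁ = (f₂ : R) + π * b₂ := by
    have : (f₁ : R) - f₂ = π * (b₁ + b₂) := by rw [hd, pow_succ', mul_assoc, hb]
    linear_combination this
  refine ⟨(f₁ : R) - π * b₁, R₁.sub_mem f₁.2 (R₁.mul_mem hπ₁ hb₁), ?_, ?_, ?_⟩
  · rw [hglob]
    exact R₂.add_mem f₂.2 (R₂.mul_mem hπ₂ hb₂)
  · exact ⟨t₁ - b₁, R₁.sub_mem t₁.2 hb₁, by linear_combination ht₁'⟩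
  · refine ⟨t₂ + b₂, R₂.add_mem t₂.2 hb₂, ?_⟩
    rw [hglob]
    linear_combination ht₂'

end Connected

section BoundedTorsion

variable {A R : Type*} [CommRing A] [CommRing R] [Algebra A R]

/-- If the Čech cohomology `R / (R₁ + R₂)` is a noetherian `A`-module (e.g. finitely generated
over a noetherian ring `A`), then its `π`-power torsion is bounded. -/
theorem boundedTorsion_of_isNoetherian (N : Submodule A R) [IsNoetherian A (R ⧸ N)] (π₀ : A) :
    ∃ c : ℕ, ∀ (n : ℕ) (d : R), algebraMap A R π₀ ^ n * d ∈ N →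
      algebraMap A R π₀ ^ c * d ∈ N := by
  -- the chain of kernels of `π₀ ^ n` on `R ⧸ N`
  have hmono : Monotone (fun n : ℕ => LinearMap.ker (LinearMap.lsmul A (R ⧸ N) (π₀ ^ n))) := by
    intro m n hmn h hh
    obtain ⟨k, rfl⟩ := Nat.exists_eq_add_of_le hmn
    rw [LinearMap.mem_ker, LinearMap.lsmul_apply] at hh ⊢
    rw [pow_add, mul_comm, mul_smul, hh, smul_zero]
  obtain ⟨c, hc⟩ := monotone_stabilizes_iff_noetherian.mpr ‹IsNoetherian A (R ⧸ N)›
    ⟨_, hmono⟩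
  have hc' : ∀ m, c ≤ m → LinearMap.ker (LinearMap.lsmul A (R ⧸ N) (π₀ ^ c))
      = LinearMap.ker (LinearMap.lsmul A (R ⧸ N) (π₀ ^ m)) := hc
  refine ⟨c, fun n d hd => ?_⟩
  have hmem : ∀ k (r : R), algebraMap A R π₀ ^ k * r ∈ N ↔
      (N.mkQ r) ∈ LinearMap.ker (LinearMap.lsmul A (R ⧸ N) (π₀ ^ k)) := by
    intro k r
    rw [LinearMap.mem_ker, LinearMap.lsmul_apply, ← map_smul, Submodule.mkQ_apply,
      Submodule.Quotient.mk_eq_zero, Algebra.smul_def, map_pow]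
  rw [hmem] at hd ⊢
  rcases le_total c n with h | h
  · rw [hc' n h]; exact hd
  · exact hmono h hd

theorem boundedTorsion_of_finite [IsNoetherianRing A] (N : Submodule A R)
    [Module.Finite A (R ⧸ N)] (π₀ : A) :
    ∃ c : ℕ, ∀ (n : ℕ) (d : R), algebraMap A R π₀ ^ n * d ∈ N →
      algebraMap A R π₀ ^ c * d ∈ N :=
  haveI : IsNoetherian A (R ⧸ N) := isNoetherian_of_isNoetherianRing_of_finite A (R ⧸ N)
  boundedTorsion_of_isNoetherian N π₀

/-- **Connectedness, packaged.**  `A` noetherian, `R₁ R₂` sub-`A`-algebras of `R` whose Čech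
`H¹ = R / (R₁ + R₂)` is a finite `A`-module.  A pair of chart-wise idempotents mod `π₀` agreeing
mod `π₀` on the overlap is congruent mod `π₀` to a global function. -/
theorem exists_global_of_idem_of_finite [IsNoetherianRing A] (R₁ R₂ : Subalgebra A R)
    [Module.Finite A (R ⧸ (Subalgebra.toSubmodule R₁ ⊔ Subalgebra.toSubmodule R₂))] (π₀ : A)
    (e₁ e₂ : R) (he₁ : e₁ ∈ R₁) (he₂ : e₂ ∈ R₂)
    (h₁ : ∃ s ∈ R₁, e₁ ^ 2 - e₁ = algebraMap A R π₀ * s)
    (h₂ : ∃ s ∈ R₂, e₂ ^ 2 - e₂ = algebraMap A R π₀ * s)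
    (h₁₂ : ∃ t : R, e₁ - e₂ = algebraMap A R π₀ * t) :
    ∃ a : R, a ∈ R₁ ∧ a ∈ R₂ ∧ (∃ s ∈ R₁, a - e₁ = algebraMap A R π₀ * s) ∧
      (∃ s ∈ R₂, a - e₂ = algebraMap A R π₀ * s) := by
  obtain ⟨c, hc⟩ := boundedTorsion_of_finite
    (Subalgebra.toSubmodule R₁ ⊔ Subalgebra.toSubmodule R₂) π₀
  refine exists_global_of_idem R₁.toSubring R₂.toSubring (algebraMap A R π₀)
    (R₁.algebraMap_mem π₀) (R₂.algebraMap_mem π₀) c ?_ e₁ e₂ he₁ he₂ h₁ h₂ h₁₂
  intro n d hd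
  have h1 : algebraMap A R π₀ ^ n * d ∈
      Subalgebra.toSubmodule R₁ ⊔ Subalgebra.toSubmodule R₂ := by
    obtain ⟨b₁, hb₁, b₂, hb₂, hb⟩ := hd
    rw [hb]
    exact Submodule.add_mem_sup hb₁ hb₂
  obtain ⟨b₁, hb₁, b₂, hb₂, hb⟩ := Submodule.mem_sup.mp (hc n d h1)
  exact ⟨b₁, hb₁, b₂, hb₂, hb.symm⟩

end BoundedTorsion

section Charts

variable {A R : Type*} [CommRing A] [CommRing R] [Algebra A R]

/-- **Finiteness of the Čech `H¹` for the two standard charts of a cover of the projective line.**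
`x y : R` with `x * y = 1`; `M₁` is an `A`-submodule of `R` stable under `x`, generated over `A[x]`
by a finite set `S`; `M₂` is an `A`-submodule stable under `y`; every element of `R` is
`y ^ k * m` with `m ∈ M₁`; every generator `s ∈ S` satisfies `y ^ k * s ∈ M₂` for some `k`.
Then `R / (M₁ + M₂)` is a finite `A`-module. -/
theorem finite_cech_of_charts (x y : R) (hxy : x * y = 1) (M₁ M₂ : Submodule A R)
    (hx : ∀ m ∈ M₁, x * m ∈ M₁) (hy : ∀ m ∈ M₂, y * m ∈ M₂)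
    (S : Finset R) (hS : ∀ s ∈ S, s ∈ M₁)
    (hgen : ∀ m ∈ M₁, m ∈ Submodule.span A {r : R | ∃ s ∈ S, ∃ j : ℕ, r = x ^ j * s})
    (hloc : ∀ r : R, ∃ k : ℕ, ∃ m ∈ M₁, r = y ^ k * m)
    (hcross : ∀ s ∈ S, ∃ k : ℕ, y ^ k * s ∈ M₂) :
    Module.Finite A (R ⧸ (M₁ ⊔ M₂)) := by
  classical
  have hxpow : ∀ (j : ℕ) (m : R), m ∈ M₁ → x ^ j * m ∈ M₁ := by
    intro j m hm
    induction j with
    | zero => simpa using hm
    | succ j ih => rw [pow_succ', mul_assoc]; exact hx _ ih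
  have hypow : ∀ (j : ℕ) (m : R), m ∈ M₂ → y ^ j * m ∈ M₂ := by
    intro j m hm
    induction j with
    | zero => simpa using hm
    | succ j ih => rw [pow_succ', mul_assoc]; exact hy _ ih
  -- a uniform bound for `hcross`
  choose! κ hκ using hcross
  let D : ℕ := S.sup κ
  have hD : ∀ s ∈ S, ∀ i, D ≤ i → y ^ i * s ∈ M₂ := by
    intro s hs i hi
    obtain ⟨e, rfl⟩ := Nat.exists_eq_add_of_le ((Finset.le_sup hs).trans hi)
    rw [add_comm, pow_add, mul_assoc]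
    exact hypow _ _ (hκ s hs)
  -- the finite generating set
  let G : Finset R := (S ×ˢ Finset.range D).image fun p => y ^ p.2 * p.1
  have hG : ∀ s ∈ S, ∀ i, i < D → y ^ i * s ∈ Submodule.span A (G : Set R) := by
    intro s hs i hi
    refine Submodule.subset_span ?_
    simp only [G, Finset.coe_image, Set.mem_image, Finset.mem_coe, Finset.mem_product,
      Finset.mem_range]
    exact ⟨(s, i), ⟨hs, hi⟩, rfl⟩
  -- every `y ^ k * x ^ j * s` lies in `M₁ + M₂ + span G`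
  have hyx : ∀ (k j : ℕ), y ^ k * x ^ (k + j) = x ^ j := by
    intro k j
    rw [pow_add, ← mul_assoc, ← mul_pow, mul_comm y x, hxy, one_pow, one_mul]
  have hxy' : ∀ (k j : ℕ), y ^ (k + j) * x ^ k = y ^ j := by
    intro k j
    rw [pow_add, mul_comm (y ^ k), mul_assoc, ← mul_pow, mul_comm y x, hxy, one_pow, mul_one]
  have hmono : ∀ (k j : ℕ), ∀ s ∈ S,
      y ^ k * (x ^ j * s) ∈ (M₁ ⊔ M₂) ⊔ Submodule.span A (G : Set R) := by
    intro k j s hs
    rcases le_total k j with h | h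
    · obtain ⟨e, rfl⟩ := Nat.exists_eq_add_of_le h
      rw [← mul_assoc, hyx]
      exact Submodule.mem_sup_left (Submodule.mem_sup_left (hxpow _ _ (hS s hs)))
    · obtain ⟨e, rfl⟩ := Nat.exists_eq_add_of_le h
      rw [← mul_assoc, hxy']
      rcases lt_or_ge e D with he | he
      · exact Submodule.mem_sup_right (hG s hs e he)
      · exact Submodule.mem_sup_left (Submodule.mem_sup_right (hD s hs e he))
  have hall : ∀ r : R, r ∈ (M₁ ⊔ M₂) ⊔ Submodule.span A (G : Set R) := by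
    intro r
    obtain ⟨k, m, hm, rfl⟩ := hloc r
    have := hgen m hm
    clear hm
    induction this using Submodule.span_induction with
    | mem z hz =>
      obtain ⟨s, hs, j, rfl⟩ := hz
      exact hmono k j s hs
    | zero => simp
    | add z w _ _ hz hw => rw [mul_add]; exact Submodule.add_mem _ hz hw
    | smul a z _ hz => rw [mul_smul_comm]; exact Submodule.smul_mem _ a hz
  -- conclude
  have htop : Submodule.map (M₁ ⊔ M₂).mkQ (Submodule.span A (G : Set R)) = ⊤ := by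
    rw [eq_top_iff]
    intro h _
    obtain ⟨r, rfl⟩ := (M₁ ⊔ M₂).mkQ_surjective h
    obtain ⟨u, hu, v, hv, huv⟩ := Submodule.mem_sup.mp (hall r)
    refine ⟨v, hv, ?_⟩
    have hu0 : (M₁ ⊔ M₂).mkQ u = 0 := by
      rw [Submodule.mkQ_apply]; exact (Submodule.Quotient.mk_eq_zero _).mpr hu
    rw [← huv, map_add, hu0, zero_add]
  refine ⟨⟨G.image (M₁ ⊔ M₂).mkQ, ?_⟩⟩
  rw [Finset.coe_image, ← Submodule.map_span, htop]

end Charts

end Fermat.Agent.S18.H738
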