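import Mathlib
import Fermat.Prelude.Def_AlgebraicCurve_DivisorClassGroup

/-!
# S18 helper (helper738): the place of `Frac S` attached to a prime element of a UFD `S`

`S` a UFD with fraction field `F`, `g : S` prime.  `primeVS g hg` is the valuation subring
`S_(g) ⊆ F`; it is a DVR with uniformiser `g`.  If a field `K ⊆ F` lies in `S_(g)`, this gives a
Prelude `AlgebraicCurve.Place K F` whose `ord` on `a / b` is
`multiplicity g a - multiplicity g b`.
-/

set_option autoImplicit false

namespace Fermat.Agent.S18.H738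

open AlgebraicCurve

section

variable {S F : Type*} [CommRing S] [IsDomain S] [Field F] [Algebra S F] [IsFractionRing S F]

theorem algebraMap_ne_zero' {a : S} (ha : a ≠ 0) : algebraMap S F a ≠ 0 := by
  intro h
  exact ha ((IsFractionRing.injective S F) (by rw [h, map_zero]))

theorem algebraMap_inj' {a b : S} (h : algebraMap S F a = algebraMap S F b) : a = b :=
  IsFractionRing.injective S F h

/-- The valuation subring `S_(g)` of `F = Frac S` for a prime element `g` of a UFD. -/
def primeVS [UniqueFactorizationMonoid S] (g : S) (hg : Prime g) : ValuationSubring F where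
  carrier := {z | ∃ a b : S, ¬ g ∣ b ∧ z * algebraMap S F b = algebraMap S F a}
  mul_mem' := by
    rintro z₁ z₂ ⟨a₁, b₁, hb₁, h₁⟩ ⟨a₂, b₂, hb₂, h₂⟩
    refine ⟨a₁ * a₂, b₁ * b₂, fun h => (hg.dvd_or_dvd h).elim hb₁ hb₂, ?_⟩
    rw [map_mul, map_mul, ← h₁, ← h₂]; ring
  one_mem' := ⟨1, 1, fun h => hg.not_isUnit (isUnit_of_dvd_one h), by simp⟩
  add_mem' := by
    rintro z₁ z₂ ⟨a₁, b₁, hb₁, h₁⟩ ⟨a₂, b₂, hb₂, h₂⟩
    refine ⟨a₁ * b₂ + a₂ * b₁, b₁ * b₂, fun h => (hg.dvd_or_dvd h).elim hb₁ hb₂, ?_⟩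
    rw [map_add, map_mul, map_mul, map_mul, ← h₁, ← h₂]; ring
  zero_mem' := ⟨0, 1, fun h => hg.not_isUnit (isUnit_of_dvd_one h), by simp⟩
  neg_mem' := by
    rintro z ⟨a, b, hb, h⟩
    exact ⟨-a, b, hb, by rw [map_neg, ← h]; ring⟩
  mem_or_inv_mem' := by
    intro z
    by_cases hz : z = 0
    · left
      exact ⟨0, 1, fun h => hg.not_isUnit (isUnit_of_dvd_one h), by simp [hz]⟩
    obtain ⟨a, b, hb0, rfl⟩ := IsFractionRing.div_surjective S z
    have hb : b ≠ 0 := nonZeroDivisors.ne_zero hb0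
    have ha : a ≠ 0 := by
      rintro rfl
      exact hz (by simp)
    obtain ⟨a', ha', hga'⟩ :=
      (FiniteMultiplicity.of_prime_left hg ha).exists_eq_pow_mul_and_not_dvd
    obtain ⟨b', hb', hgb'⟩ :=
      (FiniteMultiplicity.of_prime_left hg hb).exists_eq_pow_mul_and_not_dvd
    have hιb : algebraMap S F b ≠ 0 := algebraMap_ne_zero' hb
    have hιa : algebraMap S F a ≠ 0 := algebraMap_ne_zero' ha
    rcases le_total (multiplicity g b) (multiplicity g a) with hle | hle
    · left
      obtain ⟨k, hk⟩ := Nat.exists_eq_add_of_le hle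
      refine ⟨g ^ k * a', b', hgb', ?_⟩
      have hb'0 : b' ≠ 0 := fun h => hb (by rw [hb', h, mul_zero])
      have key : algebraMap S F a * algebraMap S F b' =
          algebraMap S F (g ^ k * a') * algebraMap S F b := by
        rw [← map_mul, ← map_mul]
        congr 1
        conv_lhs => rw [ha', hk]
        conv_rhs => rw [hb']
        ring
      rw [div_mul_eq_mul_div, div_eq_iff hιb]
      exact key
    · right
      obtain ⟨k, hk⟩ := Nat.exists_eq_add_of_le hle
      refine ⟨g ^ k * b', a', hga', ?_⟩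
      have key : algebraMap S F b * algebraMap S F a' =
          algebraMap S F (g ^ k * b') * algebraMap S F a := by
        rw [← map_mul, ← map_mul]
        congr 1
        conv_lhs => rw [hb', hk]
        conv_rhs => rw [ha']
        ring
      rw [inv_div, div_mul_eq_mul_div, div_eq_iff hιa]
      exact key

variable [UniqueFactorizationMonoid S] (g : S) (hg : Prime g)

theorem mem_primeVS_iff {z : F} :
    z ∈ primeVS (F := F) g hg ↔ ∃ a b : S, ¬ g ∣ b ∧ z * algebraMap S F b = algebraMap S F a :=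
  Iff.rfl

theorem algebraMap_mem_primeVS (a : S) : algebraMap S F a ∈ primeVS (F := F) g hg :=
  ⟨a, 1, fun h => hg.not_isUnit (isUnit_of_dvd_one h), by simp⟩

theorem div_mem_primeVS (a : S) {b : S} (hb : ¬ g ∣ b) :
    algebraMap S F a / algebraMap S F b ∈ primeVS (F := F) g hg := by
  have hb0 : b ≠ 0 := fun h => hb (h ▸ dvd_zero g)
  exact ⟨a, b, hb, div_mul_cancel₀ _ (algebraMap_ne_zero' hb0)⟩

/-- `g⁻¹ ∉ S_(g)`. -/
theorem inv_notMem_primeVS : (algebraMap S F g)⁻¹ ∉ primeVS (F := F) g hg := by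
  rintro ⟨a, b, hb, h⟩
  apply hb
  have hg0 : algebraMap S F g ≠ 0 := algebraMap_ne_zero' hg.ne_zero
  have : algebraMap S F b = algebraMap S F (g * a) := by
    rw [map_mul, ← h]
    field_simp
  exact ⟨a, algebraMap_inj' this⟩

/-- A quotient `a / b` with `g ∤ a`, `g ∤ b` is a unit of `S_(g)`. -/
def unitOfNotDvd {a b : S} (ha : ¬ g ∣ a) (hb : ¬ g ∣ b) : (primeVS (F := F) g hg)ˣ where
  val := ⟨algebraMap S F a / algebraMap S F b, div_mem_primeVS g hg a hb⟩
  inv := ⟨algebraMap S F b / algebraMap S F a, div_mem_primeVS g hg b ha⟩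
  val_inv := by
    have ha0 : a ≠ 0 := fun h => ha (h ▸ dvd_zero g)
    have hb0 : b ≠ 0 := fun h => hb (h ▸ dvd_zero g)
    have h1 : algebraMap S F a ≠ 0 := algebraMap_ne_zero' ha0
    have h2 : algebraMap S F b ≠ 0 := algebraMap_ne_zero' hb0
    apply Subtype.ext
    show algebraMap S F a / algebraMap S F b * (algebraMap S F b / algebraMap S F a) = 1
    field_simp
  inv_val := by
    have ha0 : a ≠ 0 := fun h => ha (h ▸ dvd_zero g)
    have hb0 : b ≠ 0 := fun h => hb (h ▸ dvd_zero g)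
    have h1 : algebraMap S F a ≠ 0 := algebraMap_ne_zero' ha0
    have h2 : algebraMap S F b ≠ 0 := algebraMap_ne_zero' hb0
    apply Subtype.ext
    show algebraMap S F b / algebraMap S F a * (algebraMap S F a / algebraMap S F b) = 1
    field_simp

/-- The uniformiser `g` of `S_(g)`. -/
def unif : primeVS (F := F) g hg := ⟨algebraMap S F g, algebraMap_mem_primeVS g hg g⟩

theorem unif_not_isUnit : ¬ IsUnit (unif (F := F) g hg) := by
  rintro ⟨u, hu⟩
  apply inv_notMem_primeVS (F := F) g hg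
  have h1 : ((u⁻¹ : (primeVS (F := F) g hg)ˣ) : F) * algebraMap S F g = 1 := by
    have := congrArg (Subtype.val) (u.inv_mul)
    rw [hu] at this
    simpa [unif] using this
  have hg0 : algebraMap S F g ≠ 0 := algebraMap_ne_zero' hg.ne_zero
  have h2 : (algebraMap S F g)⁻¹ = ((u⁻¹ : (primeVS (F := F) g hg)ˣ) : F) := by
    field_simp
    rw [mul_comm]; exact h1.symm
  rw [h2]
  exact Subtype.mem _

/-- Every nonzero element of `S_(g)` is a unit times a power of `g`. -/
theorem exists_unit_mul_pow (x : primeVS (F := F) g hg) (hx : x ≠ 0) :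
    ∃ (n : ℕ) (u : (primeVS (F := F) g hg)ˣ), x = (u : primeVS (F := F) g hg) * unif g hg ^ n := by
  obtain ⟨a, b, hb, h⟩ := x.2
  have hb0 : b ≠ 0 := fun h => hb (h ▸ dvd_zero g)
  have hιb : algebraMap S F b ≠ 0 := algebraMap_ne_zero' hb0
  have hxF : (x : F) ≠ 0 := fun h => hx (Subtype.ext h)
  have ha0 : a ≠ 0 := by
    rintro rfl
    rw [map_zero] at h
    exact (mul_ne_zero hxF hιb) h
  obtain ⟨a', ha', hga'⟩ :=
    (FiniteMultiplicity.of_prime_left hg ha0).exists_eq_pow_mul_and_not_dvd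
  refine ⟨multiplicity g a, unitOfNotDvd g hg hga' hb, Subtype.ext ?_⟩
  show (x : F) = algebraMap S F a' / algebraMap S F b * (algebraMap S F g) ^ (multiplicity g a)
  have : (x : F) = algebraMap S F a / algebraMap S F b := by
    field_simp
    exact h
  rw [this]
  conv_lhs => rw [ha']
  rw [map_mul, map_pow]
  ring

theorem unif_irreducible : Irreducible (unif (F := F) g hg) := by
  have hγ0 : unif (F := F) g hg ≠ 0 := by
    intro h
    have := congrArg Subtype.val h
    exact algebraMap_ne_zero' hg.ne_zero this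
  refine ⟨unif_not_isUnit g hg, fun x y hxy => ?_⟩
  have hx0 : x ≠ 0 := by rintro rfl; rw [zero_mul] at hxy; exact hγ0 hxy
  have hy0 : y ≠ 0 := by rintro rfl; rw [mul_zero] at hxy; exact hγ0 hxy
  obtain ⟨n₁, u₁, rfl⟩ := exists_unit_mul_pow g hg x hx0
  obtain ⟨n₂, u₂, rfl⟩ := exists_unit_mul_pow g hg y hy0
  rcases Nat.eq_zero_or_pos n₁ with h1 | h1
  · left; rw [h1, pow_zero, mul_one]; exact u₁.isUnit
  rcases Nat.eq_zero_or_pos n₂ with h2 | h2
  · right; rw [h2, pow_zero, mul_one]; exact u₂.isUnit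
  exfalso
  -- γ = u₁ u₂ γ^(n₁+n₂) with n₁ + n₂ ≥ 2 makes γ a unit
  obtain ⟨k, hk⟩ : ∃ k, n₁ + n₂ = k + 2 := ⟨n₁ + n₂ - 2, by omega⟩
  set γ : ↥(primeVS (F := F) g hg) := unif g hg with hγ
  set v₁ : ↥(primeVS (F := F) g hg) := (u₁ : ↥(primeVS (F := F) g hg)) with hv₁
  set v₂ : ↥(primeVS (F := F) g hg) := (u₂ : ↥(primeVS (F := F) g hg)) with hv₂
  have hpow : γ ^ n₁ * γ ^ n₂ = γ ^ (k + 2) := by rw [← pow_add, hk]
  have e : γ * 1 = γ * (γ * (v₁ * v₂ * γ ^ k)) := by
    rw [mul_one]
    calc γ = v₁ * γ ^ n₁ * (v₂ * γ ^ n₂) := hxy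
      _ = v₁ * v₂ * (γ ^ n₁ * γ ^ n₂) := by ring
      _ = v₁ * v₂ * γ ^ (k + 2) := by rw [hpow]
      _ = _ := by ring
  have h1' : (1 : ↥(primeVS (F := F) g hg)) = γ * (v₁ * v₂ * γ ^ k) := mul_left_cancel₀ hγ0 e
  exact unif_not_isUnit g hg (IsUnit.of_mul_eq_one _ h1'.symm)

theorem hasFactorization :
    IsDiscreteValuationRing.HasUnitMulPowIrreducibleFactorization (primeVS (F := F) g hg) := by
  refine ⟨unif g hg, unif_irreducible g hg, fun {x} hx => ?_⟩
  obtain ⟨n, u, rfl⟩ := exists_unit_mul_pow g hg x hx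
  exact ⟨n, u, by ring⟩

instance primeVS_isDVR : IsDiscreteValuationRing (primeVS (F := F) g hg) :=
  IsDiscreteValuationRing.ofHasUnitMulPowIrreducibleFactorization (hasFactorization g hg)

theorem primeVS_ne_top : primeVS (F := F) g hg ≠ ⊤ := by
  intro h
  apply inv_notMem_primeVS (F := F) g hg
  rw [h]
  exact ValuationSubring.mem_top _

/-- The Prelude place of `F` over `K` attached to the prime element `g`, given `K ⊆ S_(g)`. -/
def primePlace {K : Type*} [Field K] [Algebra K F]
    (hK : ∀ c : K, algebraMap K F c ∈ primeVS (F := F) g hg) : Place K F where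
  toValuationSubring := primeVS g hg
  algebraMap_mem' := hK
  ne_top' := primeVS_ne_top g hg
  isPrincipalIdealRing' := inferInstance

/-- The order of `a / b` at the place of `g` is `mult_g a - mult_g b`. -/
theorem primePlace_ord_div {K : Type*} [Field K] [Algebra K F]
    (hK : ∀ c : K, algebraMap K F c ∈ primeVS (F := F) g hg) {a b : S} (ha : a ≠ 0)
    (hb : b ≠ 0) :
    (primePlace g hg hK).ord (algebraMap S F a / algebraMap S F b) =
      (multiplicity g a : ℤ) - (multiplicity g b : ℤ) := by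
  obtain ⟨a', ha', hga'⟩ :=
    (FiniteMultiplicity.of_prime_left hg ha).exists_eq_pow_mul_and_not_dvd
  obtain ⟨b', hb', hgb'⟩ :=
    (FiniteMultiplicity.of_prime_left hg hb).exists_eq_pow_mul_and_not_dvd
  have hιg : algebraMap S F g ≠ 0 := algebraMap_ne_zero' hg.ne_zero
  have hb'0 : b' ≠ 0 := fun h => hgb' (h ▸ dvd_zero g)
  have hιb' : algebraMap S F b' ≠ 0 := algebraMap_ne_zero' hb'0
  have key : algebraMap S F a / algebraMap S F b =
      (((unitOfNotDvd g hg hga' hgb' : (primeVS (F := F) g hg)ˣ) :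
        primeVS (F := F) g hg) : F) *
        ((unif (F := F) g hg : primeVS (F := F) g hg) : F) ^
          ((multiplicity g a : ℤ) - (multiplicity g b : ℤ)) := by
    show algebraMap S F a / algebraMap S F b =
      algebraMap S F a' / algebraMap S F b' *
        (algebraMap S F g) ^ ((multiplicity g a : ℤ) - (multiplicity g b : ℤ))
    rw [zpow_sub₀ hιg, zpow_natCast, zpow_natCast]
    conv_lhs => rw [ha', hb']
    rw [map_mul, map_mul, map_pow, map_pow]
    field_simp
  rw [key]
  exact (primePlace g hg hK).ord_unit_smul_zpow (unitOfNotDvd g hg hga' hgb')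
    (unif_irreducible g hg) _

end

end Fermat.Agent.S18.H738
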