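import Mathlib

/-!
# S18 helper (helper738): extraction of `m`-th roots up to units in a UFD

`S` a UFD, `a b : S` nonzero such that for every prime `g` the difference of the multiplicities of
`g` in `a` and `b` is divisible by `m`.  Then `a / b` is a unit times an `m`-th power:
`p ^ m * a = ε * q ^ m * b` with `p q ≠ 0`, `ε` a unit; moreover every prime factor of `p`
divides `b` and every prime factor of `q` divides `a`.
-/

set_option autoImplicit false

namespace Fermat.Agent.S18.H738

section

variable {S : Type*} [CommRing S] [IsDomain S] [UniqueFactorizationMonoid S]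

theorem finMult_of_prime {g x : S} (hg : Prime g) (hx : x ≠ 0) : FiniteMultiplicity g x :=
  FiniteMultiplicity.of_prime_left hg hx

theorem multiplicity_mul_of_prime {g x y : S} (hg : Prime g) (hx : x ≠ 0) (hy : y ≠ 0) :
    multiplicity g (x * y) = multiplicity g x + multiplicity g y :=
  multiplicity_mul hg (finMult_of_prime hg (mul_ne_zero hx hy))

theorem multiplicity_pow_mul_of_prime {g p x : S} (hg : Prime g) (hp : p ≠ 0) (hx : x ≠ 0)
    (m : ℕ) :
    multiplicity g (p ^ m * x) = m * multiplicity g p + multiplicity g x := by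
  rw [multiplicity_mul_of_prime hg (pow_ne_zero m hp) hx,
    (finMult_of_prime hg hp).multiplicity_pow hg]

/-- Root extraction, by well-founded induction on `a * b` for strict divisibility. -/
theorem exists_root_aux (m : ℕ) (hm : 0 < m) :
    ∀ c : S, ∀ a b : S, a * b = c → a ≠ 0 → b ≠ 0 →
      (∀ g : S, Prime g → (m : ℤ) ∣ (multiplicity g a : ℤ) - (multiplicity g b : ℤ)) →
      ∃ p q : S, p ≠ 0 ∧ q ≠ 0 ∧ (∀ g : S, Prime g → g ∣ p → g ∣ b) ∧
        (∀ g : S, Prime g → g ∣ q → g ∣ a) ∧ ∃ ε : Sˣ, p ^ m * a = (ε : S) * q ^ m * b := by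
  intro c
  induction c using (wellFounded_dvdNotUnit (α := S)).induction with
  | _ c ih =>
    intro a b hab ha hb hcond
    by_cases hunit : IsUnit a ∧ IsUnit b
    · obtain ⟨⟨ua, rfl⟩, ⟨ub, rfl⟩⟩ := hunit
      refine ⟨1, 1, one_ne_zero, one_ne_zero,
        fun g hg h => absurd (isUnit_of_dvd_one h) hg.not_isUnit,
        fun g hg h => absurd (isUnit_of_dvd_one h) hg.not_isUnit, ua * ub⁻¹, ?_⟩
      simp
    · -- there is a prime dividing `a` or `b`
      have hex : ∃ p : S, Prime p ∧ (p ∣ a ∨ p ∣ b) := by
        by_cases hua : IsUnit a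
        · have hub : ¬ IsUnit b := fun h => hunit ⟨hua, h⟩
          obtain ⟨p, hp, hpb⟩ := WfDvdMonoid.exists_irreducible_factor hub hb
          exact ⟨p, UniqueFactorizationMonoid.irreducible_iff_prime.mp hp, Or.inr hpb⟩
        · obtain ⟨p, hp, hpa⟩ := WfDvdMonoid.exists_irreducible_factor hua ha
          exact ⟨p, UniqueFactorizationMonoid.irreducible_iff_prime.mp hp, Or.inl hpa⟩
      obtain ⟨p, hp, hpab⟩ := hex
      have hp0 : p ≠ 0 := hp.ne_zero
      by_cases hboth : p ∣ a ∧ p ∣ b
      · -- strip one `p` from both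
        obtain ⟨⟨a₀, rfl⟩, ⟨b₀, rfl⟩⟩ := hboth
        have ha₀ : a₀ ≠ 0 := right_ne_zero_of_mul ha
        have hb₀ : b₀ ≠ 0 := right_ne_zero_of_mul hb
        have hlt : DvdNotUnit (a₀ * b₀) c := by
          refine ⟨mul_ne_zero ha₀ hb₀, p * p, ?_, ?_⟩
          · exact fun h => hp.not_isUnit (isUnit_of_mul_isUnit_left h)
          · rw [← hab]; ring
        obtain ⟨r, q, hr, hq, hrb, hqa, ε, hε⟩ := ih (a₀ * b₀) hlt a₀ b₀ rfl ha₀ hb₀ (by
          intro g hg
          have := hcond g hg
          rw [multiplicity_mul_of_prime hg hp0 ha₀, multiplicity_mul_of_prime hg hp0 hb₀] at this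
          push_cast at this
          have e : (multiplicity g a₀ : ℤ) - multiplicity g b₀ =
              (multiplicity g p + multiplicity g a₀ : ℤ) - (multiplicity g p + multiplicity g b₀) := by
            ring
          rw [e]; exact this)
        refine ⟨r, q, hr, hq, fun g hg h => Dvd.dvd.mul_left (hrb g hg h) p,
          fun g hg h => Dvd.dvd.mul_left (hqa g hg h) p, ε, ?_⟩
        calc r ^ m * (p * a₀) = p * (r ^ m * a₀) := by ring
          _ = p * ((ε : S) * q ^ m * b₀) := by rw [hε]
          _ = (ε : S) * q ^ m * (p * b₀) := by ring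
      · rcases hpab with hpa | hpb
        · -- `p ∣ a`, `p ∤ b`: then `p ^ m ∣ a`
          have hpb : ¬ p ∣ b := fun h => hboth ⟨hpa, h⟩
          have h0 : multiplicity p b = 0 := multiplicity_eq_zero.mpr hpb
          have h1 : 0 < multiplicity p a := multiplicity_pos_of_dvd hpa
          have hdvd : (m : ℤ) ∣ (multiplicity p a : ℤ) := by
            have := hcond p hp
            rw [h0] at this
            simpa using this
          have hle : m ≤ multiplicity p a := by
            have := Int.le_of_dvd (by exact_mod_cast h1) hdvd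
            exact_mod_cast this
          obtain ⟨a₂, rfl⟩ := pow_dvd_of_le_multiplicity hle
          have ha₂ : a₂ ≠ 0 := right_ne_zero_of_mul ha
          have hlt : DvdNotUnit (a₂ * b) c := by
            refine ⟨mul_ne_zero ha₂ hb, p ^ m, ?_, ?_⟩
            · exact fun h => hp.not_isUnit ((isUnit_pow_iff hm.ne').mp h)
            · rw [← hab]; ring
          obtain ⟨r, q, hr, hq, hrb, hqa, ε, hε⟩ := ih (a₂ * b) hlt a₂ b rfl ha₂ hb (by
            intro g hg
            have := hcond g hg
            rw [multiplicity_pow_mul_of_prime hg hp0 ha₂] at this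
            push_cast at this
            have e : (multiplicity g a₂ : ℤ) - multiplicity g b =
                ((m : ℤ) * multiplicity g p + multiplicity g a₂ - multiplicity g b)
                  - (m : ℤ) * multiplicity g p := by ring
            rw [e]
            exact dvd_sub this (dvd_mul_right _ _))
          refine ⟨r, q * p, hr, mul_ne_zero hq hp0, hrb, ?_, ε, ?_⟩
          · intro g hg h
            rcases hg.dvd_or_dvd h with h' | h'
            · exact Dvd.dvd.mul_left (hqa g hg h') _
            · exact h'.trans hpa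
          calc r ^ m * (p ^ m * a₂) = p ^ m * (r ^ m * a₂) := by ring
            _ = p ^ m * ((ε : S) * q ^ m * b) := by rw [hε]
            _ = (ε : S) * (q * p) ^ m * b := by ring
        · -- `p ∣ b`, `p ∤ a`: then `p ^ m ∣ b`
          have hpa : ¬ p ∣ a := fun h => hboth ⟨h, hpb⟩
          have h0 : multiplicity p a = 0 := multiplicity_eq_zero.mpr hpa
          have h1 : 0 < multiplicity p b := multiplicity_pos_of_dvd hpb
          have hdvd : (m : ℤ) ∣ (multiplicity p b : ℤ) := by
            have := hcond p hp
            rw [h0] at this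
            simpa using this
          have hle : m ≤ multiplicity p b := by
            have := Int.le_of_dvd (by exact_mod_cast h1) hdvd
            exact_mod_cast this
          obtain ⟨b₂, rfl⟩ := pow_dvd_of_le_multiplicity hle
          have hb₂ : b₂ ≠ 0 := right_ne_zero_of_mul hb
          have hlt : DvdNotUnit (a * b₂) c := by
            refine ⟨mul_ne_zero ha hb₂, p ^ m, ?_, ?_⟩
            · exact fun h => hp.not_isUnit ((isUnit_pow_iff hm.ne').mp h)
            · rw [← hab]; ring
          obtain ⟨r, q, hr, hq, hrb, hqa, ε, hε⟩ := ih (a * b₂) hlt a b₂ rfl ha hb₂ (by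
            intro g hg
            have := hcond g hg
            rw [multiplicity_pow_mul_of_prime hg hp0 hb₂] at this
            push_cast at this
            have e : (multiplicity g a : ℤ) - multiplicity g b₂ =
                ((multiplicity g a : ℤ) - ((m : ℤ) * multiplicity g p + multiplicity g b₂))
                  + (m : ℤ) * multiplicity g p := by ring
            rw [e]
            exact dvd_add this (dvd_mul_right _ _))
          refine ⟨r * p, q, mul_ne_zero hr hp0, hq, ?_, hqa, ε, ?_⟩
          · intro g hg h
            rcases hg.dvd_or_dvd h with h' | h'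
            · exact Dvd.dvd.mul_left (hrb g hg h') _
            · exact h'.trans hpb
          calc (r * p) ^ m * a = p ^ m * (r ^ m * a) := by ring
            _ = p ^ m * ((ε : S) * q ^ m * b₂) := by rw [hε]
            _ = (ε : S) * q ^ m * (p ^ m * b₂) := by ring

/-- **Root extraction in a UFD.**  If `m ∣ ord_g(a) - ord_g(b)` for every prime `g`, then
`a / b` is a unit times an `m`-th power. -/
theorem exists_root_of_multiplicity_dvd (m : ℕ) (hm : 0 < m) (a b : S) (ha : a ≠ 0) (hb : b ≠ 0)
    (hcond : ∀ g : S, Prime g → (m : ℤ) ∣ (multiplicity g a : ℤ) - (multiplicity g b : ℤ)) :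
    ∃ p q : S, p ≠ 0 ∧ q ≠ 0 ∧ (∀ g : S, Prime g → g ∣ p → g ∣ b) ∧
      (∀ g : S, Prime g → g ∣ q → g ∣ a) ∧ ∃ ε : Sˣ, p ^ m * a = (ε : S) * q ^ m * b :=
  exists_root_aux m hm (a * b) a b rfl ha hb hcond

end

end Fermat.Agent.S18.H738
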