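import Mathlib

/-!
# S18 helper (helper738): a local noetherian domain with a prime element `π` such that `S ⧸ (π)`
is a principal ideal ring is a UFD.

(Used for `S = B_𝔫`, the local ring of the normal model at a closed point of the special fibre:
`S ⧸ (π) = (B ⧸ π)_𝔫` is a DVR by b2.)  Proof: Kaplansky's criterion + Nakayama.
-/

set_option autoImplicit false

namespace Fermat.Agent.S18.H738

open Ideal

/-- A prime ideal `𝔮` of a noetherian local ring not containing the element `π`, such that the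
image of `𝔮` in `S ⧸ (π)` is principal, is principal. -/
theorem exists_eq_span_singleton_of_quotient_principal {S : Type*} [CommRing S] [IsLocalRing S]
    [IsNoetherianRing S] (π : S) (hπ : ¬ IsUnit π) (𝔮 : Ideal S) [h𝔮 : 𝔮.IsPrime] (hπ𝔮 : π ∉ 𝔮)
    (hprinc : (𝔮.map (Ideal.Quotient.mk (Ideal.span {π}))).IsPrincipal) :
    ∃ g ∈ 𝔮, 𝔮 = Ideal.span {g} := by
  obtain ⟨gbar, hgbar⟩ := hprinc
  have hsurj : Function.Surjective (Ideal.Quotient.mk (Ideal.span {π})) :=
    Ideal.Quotient.mk_surjective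
  have hgmem : gbar ∈ 𝔮.map (Ideal.Quotient.mk (Ideal.span {π})) := by
    rw [hgbar]; exact Submodule.mem_span_singleton_self gbar
  obtain ⟨g, hg, rfl⟩ := (Ideal.mem_map_iff_of_surjective _ hsurj).mp hgmem
  refine ⟨g, hg, le_antisymm ?_ ((Ideal.span_singleton_le_iff_mem _).mpr hg)⟩
  -- Nakayama: 𝔮 ≤ (g) + (π) 𝔮
  have hjac : Ideal.span {π} ≤ Ideal.jacobson (⊥ : Ideal S) := by
    rw [IsLocalRing.jacobson_eq_maximalIdeal ⊥ bot_ne_top, Ideal.span_singleton_le_iff_mem]
    exact (IsLocalRing.mem_maximalIdeal π).mpr hπ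
  have hle : 𝔮 ≤ Ideal.span {g} ⊔ Ideal.span {π} • 𝔮 := by
    intro b hb
    have hb' : Ideal.Quotient.mk (Ideal.span {π}) b ∈
        𝔮.map (Ideal.Quotient.mk (Ideal.span {π})) := Ideal.mem_map_of_mem _ hb
    rw [hgbar] at hb'
    obtain ⟨abar, habar⟩ := Submodule.mem_span_singleton.mp hb'
    obtain ⟨a, rfl⟩ := hsurj abar
    have hdiff : b - a * g ∈ Ideal.span {π} := by
      rw [← Ideal.Quotient.eq]
      rw [map_mul, ← habar]
      rfl
    obtain ⟨c, hc⟩ := Ideal.mem_span_singleton'.mp hdiff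
    have hcq : c ∈ 𝔮 := by
      have : c * π ∈ 𝔮 := by
        rw [hc]
        exact 𝔮.sub_mem hb (𝔮.mul_mem_left a hg)
      exact (h𝔮.mem_or_mem this).resolve_right hπ𝔮
    have hbeq : b = a * g + π * c := by rw [mul_comm π c, hc]; ring
    rw [hbeq]
    refine Submodule.add_mem_sup (Ideal.mem_span_singleton'.mpr ⟨a, rfl⟩) ?_
    exact Submodule.smul_mem_smul (Ideal.mem_span_singleton_self π) hcq
  exact Submodule.le_of_le_smul_of_le_jacobson_bot (IsNoetherian.noetherian 𝔮) hjac hle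

/-- **UFD criterion.**  A noetherian local domain `S` with a prime element `π` such that every
ideal of `S ⧸ (π)` is principal is a unique factorisation domain. -/
theorem ufd_of_prime_of_quotient_principal {S : Type*} [CommRing S] [IsDomain S] [IsLocalRing S]
    [IsNoetherianRing S] (π : S) (hπ : Prime π)
    (hprinc : ∀ I : Ideal (S ⧸ Ideal.span {π}), I.IsPrincipal) :
    UniqueFactorizationMonoid S := by
  refine UniqueFactorizationMonoid.iff_exists_prime_mem_of_isPrime.mpr fun 𝔮 h𝔮0 h𝔮 => ?_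
  by_cases hπ𝔮 : π ∈ 𝔮
  · exact ⟨π, hπ𝔮, hπ⟩
  · haveI := h𝔮
    obtain ⟨g, hg, hgq⟩ :=
      exists_eq_span_singleton_of_quotient_principal π hπ.not_unit 𝔮 hπ𝔮 (hprinc _)
    refine ⟨g, hg, ?_⟩
    have hg0 : g ≠ 0 := by
      rintro rfl
      apply h𝔮0
      rw [hgq]
      simp
    exact (Ideal.span_singleton_prime hg0).mp (hgq ▸ h𝔮)

end Fermat.Agent.S18.H738
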