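import Mathlib
import Fermat.Prelude.Def_AlgebraicCurve_DivisorClassGroup
import Fermat.Agent.S18.H738.UFD
import Fermat.Agent.S18.H738.Roots
import Fermat.Agent.S18.H738.PrimePlace

/-!
# S18 helper (helper738): LOCAL EXISTENCE (LE-loc) at a closed point of the special fibre

`S` = local ring of the normal model at a closed point of the special fibre: a noetherian local
domain with a prime element `π` such that `S ⧸ (π)` is a principal ideal ring (a DVR, by b2).
`F = Frac S`, `K ⊆ S[1/π]` a field (the constant field `E`).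

If `u ∈ F` is `≡ 1 mod π` (in `S_(π)`) and `m ∣ ord_v(u)` for every place `v` of `F/K`, then there is
`σ ∈ F` with `σ ^ m * u ∈ Sˣ` and `σ ≡ 1 mod π` (in `S_(π)`).
-/

set_option autoImplicit false

namespace Fermat.Agent.S18.H738

open AlgebraicCurve

section

variable {S F K : Type*} [CommRing S] [IsDomain S] [IsLocalRing S] [IsNoetherianRing S]
  [Field F] [Algebra S F] [IsFractionRing S F] [Field K] [Algebra K F]

/-- In a local ring, an element which is a unit modulo a non-unit `π` is a unit. -/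
theorem isUnit_of_isUnit_mk {π τ : S} (hπ : ¬ IsUnit π)
    (h : IsUnit (Ideal.Quotient.mk (Ideal.span {π}) τ)) : IsUnit τ := by
  by_contra hτ
  obtain ⟨w, hw⟩ := h.exists_right_inv
  obtain ⟨τ', rfl⟩ := Ideal.Quotient.mk_surjective w
  rw [← map_mul, ← map_one (Ideal.Quotient.mk (Ideal.span {π})), Ideal.Quotient.eq,
    Ideal.mem_span_singleton'] at hw
  obtain ⟨c, hc⟩ := hw
  have h1 : τ * τ' ∈ IsLocalRing.maximalIdeal S :=
    Ideal.mul_mem_right _ _ ((IsLocalRing.mem_maximalIdeal τ).mpr hτ)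
  have h2 : c * π ∈ IsLocalRing.maximalIdeal S :=
    Ideal.mul_mem_left _ _ ((IsLocalRing.mem_maximalIdeal π).mpr hπ)
  have h3 : (1 : S) ∈ IsLocalRing.maximalIdeal S := by
    have : (1 : S) = τ * τ' - c * π := by rw [hc]; ring
    rw [this]
    exact Ideal.sub_mem _ h1 h2
  exact (IsLocalRing.maximalIdeal.isMaximal S).ne_top
    ((Ideal.eq_top_iff_one _).mpr h3)

/-- **Local existence.** -/
theorem localExistence (π : S) (hπ : Prime π)
    [IsPrincipalIdealRing (S ⧸ Ideal.span {π})]
    (hK : ∀ c : K, ∃ (a : S) (n : ℕ),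
      algebraMap K F c * algebraMap S F π ^ n = algebraMap S F a)
    (m : ℕ) (hm : 0 < m) (u : F)
    (hu1 : ∃ c d : S, ¬ π ∣ d ∧ (u - 1) * algebraMap S F d = algebraMap S F π * algebraMap S F c)
    (hdiv : ∀ v : Place K F, (m : ℤ) ∣ v.ord u) :
    ∃ σ : F, σ ≠ 0 ∧ (∃ ε : Sˣ, σ ^ m * u = algebraMap S F (ε : S)) ∧
      ∃ c d : S, ¬ π ∣ d ∧ (σ - 1) * algebraMap S F d = algebraMap S F π * algebraMap S F c := by
  classical
  have : UniqueFactorizationMonoid S :=
    ufd_of_prime_of_quotient_principal π hπ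
      (fun I => IsPrincipalIdealRing.principal I)
  have hprime : (Ideal.span {π} : Ideal S).IsPrime :=
    (Ideal.span_singleton_prime hπ.ne_zero).mpr hπ
  have : IsDomain (S ⧸ Ideal.span {π}) := Ideal.Quotient.isDomain _
  obtain ⟨c, d, hd, hcd⟩ := hu1
  have hd0 : d ≠ 0 := fun h => hd (h ▸ dvd_zero π)
  have hιd : algebraMap S F d ≠ 0 := algebraMap_ne_zero' hd0
  -- the representation `u = a / b` with `a = d + π c`, `b = d`
  set a : S := d + π * c with ha_def
  have hπa : ¬ π ∣ a := by
    intro h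
    exact hd ((dvd_add_left (dvd_mul_right π c)).mp h)
  have ha0 : a ≠ 0 := fun h => hπa (h ▸ dvd_zero π)
  have hu : u = algebraMap S F a / algebraMap S F d := by
    rw [eq_div_iff hιd, ha_def, map_add, map_mul, ← hcd]
    ring
  -- the divisibility condition at every prime of `S`
  have hcond : ∀ g : S, Prime g →
      (m : ℤ) ∣ (multiplicity g a : ℤ) - (multiplicity g d : ℤ) := by
    intro g hg
    by_cases hgπ : g ∣ π
    · -- `g` is associated to `π`
      have hga : ¬ g ∣ a := fun h => by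
        obtain ⟨x, hx⟩ := hgπ
        have hx' : IsUnit x := by
          rcases hπ.irreducible.isUnit_or_isUnit hx with h' | h'
          · exact absurd h' hg.not_isUnit
          · exact h'
        obtain ⟨y, hy⟩ := h
        apply hπa
        obtain ⟨ux, rfl⟩ := hx'
        exact ⟨(↑ux⁻¹ : S) * y, by rw [hy, hx]; ring_nf; simp [mul_assoc]⟩
      have hgd : ¬ g ∣ d := fun h => by
        obtain ⟨x, hx⟩ := hgπ
        have hx' : IsUnit x := by
          rcases hπ.irreducible.isUnit_or_isUnit hx with h' | h'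
          · exact absurd h' hg.not_isUnit
          · exact h'
        obtain ⟨y, hy⟩ := h
        apply hd
        obtain ⟨ux, rfl⟩ := hx'
        exact ⟨(↑ux⁻¹ : S) * y, by rw [hy, hx]; ring_nf; simp [mul_assoc]⟩
      rw [multiplicity_eq_zero.mpr hga, multiplicity_eq_zero.mpr hgd]
      simp
    · -- a horizontal prime: use the place of `g`
      have hKg : ∀ c : K, algebraMap K F c ∈ primeVS (F := F) g hg := by
        intro c
        obtain ⟨x, n, hx⟩ := hK c
        refine ⟨x, π ^ n, fun h => hgπ (hg.dvd_of_dvd_pow h), ?_⟩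
        rw [map_pow]
        exact hx
      have := hdiv (primePlace g hg hKg)
      rw [hu, primePlace_ord_div g hg hKg ha0 hd0] at this
      exact this
  obtain ⟨p, q, hp0, hq0, hpd, hqa, ε, hε⟩ :=
    exists_root_of_multiplicity_dvd m hm a d ha0 hd0 hcond
  have hπp : ¬ π ∣ p := fun h => hd (hpd π hπ h)
  have hπq : ¬ π ∣ q := fun h => hπa (hqa π hπ h)
  -- reduce mod π
  let mk := Ideal.Quotient.mk (Ideal.span {π} : Ideal S)
  have hmk0 : ∀ x : S, mk x = 0 ↔ π ∣ x := fun x => by
    rw [Ideal.Quotient.eq_zero_iff_mem, Ideal.mem_span_singleton]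
  have hmka : mk a = mk d := by
    rw [ha_def, map_add, map_mul, (hmk0 π).mpr dvd_rfl, zero_mul, add_zero]
  have hmkd : mk d ≠ 0 := fun h => hd ((hmk0 d).mp h)
  have hmkq : mk q ≠ 0 := fun h => hπq ((hmk0 q).mp h)
  have hred : mk p ^ m = mk (ε : S) * mk q ^ m := by
    have h := congrArg mk hε
    rw [map_mul, map_mul, map_mul, map_pow, map_pow, hmka] at h
    exact mul_right_cancel₀ hmkd h
  have hassoc : Associated (mk q ^ m) (mk p ^ m) := by
    refine ⟨(Units.map mk.toMonoidHom ε), ?_⟩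
    rw [hred]
    simp only [Units.coe_map, RingHom.toMonoidHom_eq_coe, MonoidHom.coe_coe]
    ring
  have hassoc' : Associated (mk q) (mk p) := (Associated.pow_iff hm.ne').mp hassoc
  obtain ⟨τbar, hτbar⟩ := hassoc'
  obtain ⟨τ, hτ⟩ := Ideal.Quotient.mk_surjective (τbar : S ⧸ Ideal.span {π})
  have hτu : IsUnit τ := isUnit_of_isUnit_mk hπ.not_isUnit (by rw [hτ]; exact τbar.isUnit)
  obtain ⟨τu, rfl⟩ := hτu
  -- `p - q τ ∈ (π)`
  have hdiff : π ∣ p - q * (τu : S) := by
    rw [← hmk0, map_sub, map_mul, hτ, hτbar, sub_self]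
  obtain ⟨c', hc'⟩ := hdiff
  have hιq : algebraMap S F q ≠ 0 := algebraMap_ne_zero' hq0
  have hιτ : algebraMap S F (τu : S) ≠ 0 := algebraMap_ne_zero' τu.ne_zero
  have hιp : algebraMap S F p ≠ 0 := algebraMap_ne_zero' hp0
  refine ⟨algebraMap S F p / (algebraMap S F q * algebraMap S F (τu : S)),
    div_ne_zero hιp (mul_ne_zero hιq hιτ), ⟨ε * τu⁻¹ ^ m, ?_⟩, c', q * τu, ?_, ?_⟩
  · -- σ^m u = ε τ^{-m}
    have hεF := congrArg (algebraMap S F) hε
    simp only [map_mul, map_pow] at hεF
    have hτinv : algebraMap S F ((τu⁻¹ : Sˣ) : S) * algebraMap S F (τu : S) = 1 := by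
      rw [← map_mul, Units.inv_mul, map_one]
    rw [hu, div_pow, mul_pow, Units.val_mul, Units.val_pow_eq_pow_val, map_mul, map_pow]
    have hτinv' : algebraMap S F ((τu⁻¹ : Sˣ) : S) = (algebraMap S F (τu : S))⁻¹ :=
      eq_inv_of_mul_eq_one_left hτinv
    rw [hτinv', inv_pow]
    field_simp
    linear_combination hεF
  · intro h
    rcases hπ.dvd_or_dvd h with h' | h'
    · exact hπq h'
    · exact hπ.not_isUnit (isUnit_of_dvd_unit h' τu.isUnit)
  · have : algebraMap S F (p - q * (τu : S)) = algebraMap S F π * algebraMap S F c' := by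
      rw [hc', map_mul]
    rw [map_sub, map_mul] at this
    rw [map_mul, ← this]
    field_simp

end

end Fermat.Agent.S18.H738
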