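import Mathlib
import Fermat.Prelude.Def_AlgebraicCurve_DivisorClassGroup
import Fermat.Agent.S18.H738.LocalExistence

/-!
# S18 helper (helper738): K'-B — the local `m`-th root of the divisor of `u` on a chart

`B` = a chart of the model (noetherian domain, `F = Frac B`), `π ∈ B` a prime element (the
uniformiser of the base DVR), `K ⊆ B[1/π]` the constant field.  Hypothesis **RegularAlong**
(output O1 of b2, `Fermat.Agent.S18.B12.B2RegularStatement` / `H754.RegularAlong`): every maximal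
ideal `𝔫 ∋ π` of `B` is locally generated by `π` and one more element.

`div_of_regularAlong`: if `u ≡ 1 mod π` and `m ∣ ord_v u` for every place `v` of `F/K`, then at
every maximal ideal `𝔫 ∋ π` there is `σ ∈ F` with `σ ^ m * u = c / s`, `c, s ∈ B ∖ 𝔫`
(this is exactly the field `div` of `Fermat.Agent.S18.H513.ChartHyp`), and moreover `σ ≡ 1 mod π`.
-/

set_option autoImplicit false

namespace Fermat.Agent.S18.H738

open AlgebraicCurve

section LocalPrincipal

variable {S : Type*} [CommRing S] [IsDomain S] [IsLocalRing S] [IsNoetherianRing S]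

/-- If the maximal ideal of the noetherian local domain `S` is generated by a prime element `π`
and one more element `t`, then `S ⧸ (π)` is a principal ideal ring. -/
theorem isPrincipalIdealRing_quotient_of_maximalIdeal_le (π t : S) (hπ : Prime π)
    (ht : ¬ IsUnit t) (hmax : IsLocalRing.maximalIdeal S ≤ Ideal.span {π, t}) :
    IsPrincipalIdealRing (S ⧸ Ideal.span {π}) := by
  have hprime : (Ideal.span {π} : Ideal S).IsPrime :=
    (Ideal.span_singleton_prime hπ.ne_zero).mpr hπ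
  haveI : IsDomain (S ⧸ Ideal.span {π}) := Ideal.Quotient.isDomain _
  haveI : IsLocalRing (S ⧸ Ideal.span {π}) :=
    IsLocalRing.of_surjective' (Ideal.Quotient.mk _) Ideal.Quotient.mk_surjective
  refine ((tfae_of_isNoetherianRing_of_isLocalRing_of_isDomain
    (S ⧸ Ideal.span {π})).out 4 0).mp ?_
  have hπ0 : Ideal.Quotient.mk (Ideal.span {π}) π = 0 := by
    rw [Ideal.Quotient.eq_zero_iff_mem]
    exact Ideal.mem_span_singleton_self π
  refine ⟨⟨Ideal.Quotient.mk _ t, ?_⟩⟩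
  show IsLocalRing.maximalIdeal (S ⧸ Ideal.span {π}) = Ideal.span {Ideal.Quotient.mk _ t}
  apply le_antisymm
  · intro y hy
    obtain ⟨y', rfl⟩ := Ideal.Quotient.mk_surjective y
    have hy' : y' ∈ IsLocalRing.maximalIdeal S := by
      rw [IsLocalRing.mem_maximalIdeal, mem_nonunits_iff] at hy ⊢
      intro h
      exact hy (h.map _)
    obtain ⟨a, b, hab⟩ := Ideal.mem_span_pair.mp (hmax hy')
    rw [← hab, map_add, map_mul, map_mul, hπ0, mul_zero, zero_add]
    exact Ideal.mul_mem_left _ _ (Ideal.mem_span_singleton_self _)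
  · rw [Ideal.span_singleton_le_iff_mem, IsLocalRing.mem_maximalIdeal, mem_nonunits_iff]
    intro h
    exact ht (isUnit_of_isUnit_mk hπ.not_isUnit h)

end LocalPrincipal

section Localize

variable {B S F K : Type*} [CommRing B] [IsDomain B] [IsNoetherianRing B]
  [Field F] [Algebra B F] [IsFractionRing B F] [Field K] [Algebra K F]
  [CommRing S] [Algebra B S] [Algebra S F] [IsScalarTower B S F] [IsFractionRing S F]

/-- K'-B for a given model `S ⊆ F` of the localisation `B_𝔫`. -/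
theorem div_local_aux (𝔫 : Ideal B) [h𝔫 : 𝔫.IsPrime] [IsLocalization.AtPrime S 𝔫]
    (π : B) (hπ : Prime π) (hπ𝔫 : π ∈ 𝔫)
    (t : B) (ht : t ∈ 𝔫) (hreg : ∀ a ∈ 𝔫, ∃ s : B, s ∉ 𝔫 ∧ s * a ∈ Ideal.span {π, t})
    (hK : ∀ c : K, ∃ (a : B) (n : ℕ),
      algebraMap K F c * algebraMap B F π ^ n = algebraMap B F a)
    (m : ℕ) (hm : 0 < m) (u : F)
    (hu1 : ∃ c d : B, ¬ π ∣ d ∧ (u - 1) * algebraMap B F d = algebraMap B F π * algebraMap B F c)
    (hdiv : ∀ v : Place K F, (m : ℤ) ∣ v.ord u) :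
    ∃ (σ : F) (c s : B), c ∉ 𝔫 ∧ s ∉ 𝔫 ∧ σ ^ m * u * algebraMap B F s = algebraMap B F c ∧
      ∃ c' d' : B, ¬ π ∣ d' ∧
        (σ - 1) * algebraMap B F d' = algebraMap B F π * algebraMap B F c' := by
  classical
  haveI : IsLocalRing S := IsLocalization.AtPrime.isLocalRing S 𝔫
  haveI : IsNoetherianRing S := IsLocalization.isNoetherianRing 𝔫.primeCompl S inferInstance
  have hinjSF : Function.Injective (algebraMap S F) := IsFractionRing.injective S F
  haveI : IsDomain S := hinjSF.isDomain _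
  have hinjBF : Function.Injective (algebraMap B F) := IsFractionRing.injective B F
  have hBSF : ∀ b : B, algebraMap S F (algebraMap B S b) = algebraMap B F b :=
    fun b => (IsScalarTower.algebraMap_apply B S F b).symm
  have hinjBS : Function.Injective (algebraMap B S) := fun a b h =>
    hinjBF (by rw [← hBSF, ← hBSF, h])
  have hunit : ∀ s : B, s ∉ 𝔫 → IsUnit (algebraMap B S s) := fun s hs =>
    (IsLocalization.AtPrime.isUnit_to_map_iff S 𝔫 s).mpr hs
  -- `π` stays prime in `S`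
  have hπS : Prime (algebraMap B S π) := by
    have hdisj : Disjoint (𝔫.primeCompl : Set B) ((Ideal.span {π} : Ideal B) : Set B) := by
      rw [Set.disjoint_left]
      intro x hx hx'
      exact hx ((Ideal.span_singleton_le_iff_mem 𝔫).mpr hπ𝔫 hx')
    have h1 := IsLocalization.isPrime_of_isPrime_disjoint 𝔫.primeCompl S (Ideal.span {π})
      ((Ideal.span_singleton_prime hπ.ne_zero).mpr hπ) hdisj
    rw [Ideal.map_span, Set.image_singleton] at h1
    refine (Ideal.span_singleton_prime ?_).mp h1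
    intro h
    exact hπ.ne_zero (hinjBS (by rw [h, map_zero]))
  -- non-divisibility by `π` transfers to `S`
  have hndvd : ∀ d : B, ¬ π ∣ d → ¬ algebraMap B S π ∣ algebraMap B S d := by
    rintro d hd ⟨y, hy⟩
    obtain ⟨⟨a, s⟩, has⟩ := IsLocalization.surj 𝔫.primeCompl y
    have h2 : algebraMap B S (d * s) = algebraMap B S (π * a) := by
      rw [map_mul, map_mul, hy, mul_assoc, has]
    have h3 := hinjBS h2
    rcases hπ.dvd_or_dvd ⟨a, h3⟩ with h | h
    · exact hd h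
    · exact s.2 (Ideal.mem_of_dvd 𝔫 h hπ𝔫)
  -- the maximal ideal of `S` is `(π, t)`
  have hmax : IsLocalRing.maximalIdeal S ≤ Ideal.span {algebraMap B S π, algebraMap B S t} := by
    intro y hy
    obtain ⟨a, s, rfl⟩ := IsLocalization.exists_mk'_eq 𝔫.primeCompl y
    have ha : a ∈ 𝔫 := (IsLocalization.AtPrime.mk'_mem_maximal_iff S 𝔫 a s).mp hy
    obtain ⟨s', hs', hs'a⟩ := hreg a ha
    obtain ⟨c, d, hcd⟩ := Ideal.mem_span_pair.mp hs'a
    obtain ⟨us', hus'⟩ := hunit s' hs'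
    obtain ⟨us, hus⟩ := hunit s s.2
    have hmk : IsLocalization.mk' S a s * algebraMap B S s = algebraMap B S a :=
      IsLocalization.mk'_spec S a s
    have hcd' : algebraMap B S c * algebraMap B S π + algebraMap B S d * algebraMap B S t
        = algebraMap B S s' * algebraMap B S a := by
      rw [← map_mul, ← map_mul, ← map_add, hcd, map_mul]
    have : IsLocalization.mk' S a s = (↑us'⁻¹ : S) * (↑us⁻¹ : S) *
        (algebraMap B S c * algebraMap B S π + algebraMap B S d * algebraMap B S t) := by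
      rw [hcd', ← hmk, ← hus', ← hus]
      have e1 : (↑us'⁻¹ : S) * (↑us' : S) = 1 := Units.inv_mul us'
      have e2 : (↑us⁻¹ : S) * (↑us : S) = 1 := Units.inv_mul us
      calc IsLocalization.mk' S a s
          = ((↑us'⁻¹ : S) * (↑us' : S)) * ((↑us⁻¹ : S) * (↑us : S)) *
              IsLocalization.mk' S a s := by rw [e1, e2]; ring
        _ = _ := by ring
    rw [this]
    refine Ideal.mul_mem_left _ _ (Ideal.add_mem _ ?_ ?_)
    · exact Ideal.mul_mem_left _ _ (Ideal.subset_span (by simp))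
    · exact Ideal.mul_mem_left _ _ (Ideal.subset_span (by simp))
  have htS : ¬ IsUnit (algebraMap B S t) := by
    rw [IsLocalization.AtPrime.isUnit_to_map_iff S 𝔫 t]
    exact fun h => h ht
  haveI : IsPrincipalIdealRing (S ⧸ Ideal.span {algebraMap B S π}) :=
    isPrincipalIdealRing_quotient_of_maximalIdeal_le _ _ hπS htS hmax
  -- transfer the hypotheses
  have hK' : ∀ c : K, ∃ (a : S) (n : ℕ),
      algebraMap K F c * algebraMap S F (algebraMap B S π) ^ n = algebraMap S F a := by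
    intro c
    obtain ⟨a, n, h⟩ := hK c
    exact ⟨algebraMap B S a, n, by rw [hBSF, hBSF, h]⟩
  have hu1' : ∃ c d : S, ¬ algebraMap B S π ∣ d ∧
      (u - 1) * algebraMap S F d = algebraMap S F (algebraMap B S π) * algebraMap S F c := by
    obtain ⟨c, d, hd, h⟩ := hu1
    exact ⟨algebraMap B S c, algebraMap B S d, hndvd d hd, by rw [hBSF, hBSF, hBSF, h]⟩
  obtain ⟨σ, -, ⟨ε, hε⟩, cS, dS, hdS, hσ⟩ :=
    localExistence (S := S) (F := F) (K := K) (algebraMap B S π) hπS hK' m hm u hu1' hdiv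
  -- clear denominators
  obtain ⟨⟨c, s⟩, hcs⟩ := IsLocalization.surj 𝔫.primeCompl (ε : S)
  obtain ⟨⟨c₁, s₁⟩, hc₁⟩ := IsLocalization.surj 𝔫.primeCompl cS
  obtain ⟨⟨d₁, s₂⟩, hd₁⟩ := IsLocalization.surj 𝔫.primeCompl dS
  simp only at hcs hc₁ hd₁
  refine ⟨σ, c, s, ?_, s.2, ?_, c₁ * s₂, d₁ * s₁, ?_, ?_⟩
  · -- `c ∉ 𝔫` since its image is a unit
    have : IsUnit (algebraMap B S c) := by
      rw [← hcs]
      exact ε.isUnit.mul (hunit s s.2)
    exact (IsLocalization.AtPrime.isUnit_to_map_iff S 𝔫 c).mp this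
  · rw [hε, ← hBSF (s : B), ← map_mul, hcs, hBSF]
  · intro h
    rcases hπ.dvd_or_dvd h with h' | h'
    · apply hdS
      have h4 : algebraMap B S π ∣ dS * algebraMap B S s₂ := by
        rw [hd₁]
        exact map_dvd (algebraMap B S) h'
      exact (hπS.dvd_or_dvd h4).resolve_right
        (fun h5 => hπS.not_isUnit (isUnit_of_dvd_unit h5 (hunit s₂ s₂.2)))
    · exact s₁.2 (Ideal.mem_of_dvd 𝔫 h' hπ𝔫)
  · have e1 : algebraMap B F (d₁ * s₁) = algebraMap S F dS * algebraMap B F s₂ * algebraMap B F s₁ := by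
      rw [map_mul, ← hBSF d₁, ← hd₁, map_mul, hBSF]
    have e2 : algebraMap B F (c₁ * s₂) = algebraMap S F cS * algebraMap B F s₁ * algebraMap B F s₂ := by
      rw [map_mul, ← hBSF c₁, ← hc₁, map_mul, hBSF]
    rw [e1, e2, hBSF] at *
    linear_combination (algebraMap B F s₂ * algebraMap B F s₁) * hσ

end Localize

section Main

variable {B F K : Type*} [CommRing B] [IsDomain B] [IsNoetherianRing B]
  [Field F] [Algebra B F] [IsFractionRing B F] [Field K] [Algebra K F]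

/-- The valuation-subring form of the divisibility hypothesis implies the `Place` form. -/
theorem ord_dvd_of_valuationSubring (m : ℕ) (u : F)
    (hdiv : ∀ O : ValuationSubring F, (∀ c : K, algebraMap K F c ∈ O) →
      ∃ t : F, t ≠ 0 ∧ u * t ^ m ∈ O ∧ (u * t ^ m)⁻¹ ∈ O)
    (v : Place K F) : (m : ℤ) ∣ v.ord u := by
  by_cases hu : u = 0
  · rw [hu, Place.ord_zero]
    exact dvd_zero _
  obtain ⟨t, ht, h1, h2⟩ := hdiv v.toValuationSubring v.algebraMap_mem'
  have hy0 : u * t ^ m ≠ 0 := mul_ne_zero hu (pow_ne_zero _ ht)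
  let y : v.toValuationSubringˣ :=
    ⟨⟨u * t ^ m, h1⟩, ⟨(u * t ^ m)⁻¹, h2⟩,
      Subtype.ext (mul_inv_cancel₀ hy0), Subtype.ext (inv_mul_cancel₀ hy0)⟩
  have h3 : v.ord (u * t ^ m) = 0 := v.ord_coe_unit y
  rw [Place.ord_mul v hu (pow_ne_zero _ ht), ← zpow_natCast, Place.ord_zpow] at h3
  exact ⟨-v.ord t, by linarith⟩

/-- **K'-B (local `m`-th root of the divisor).**  `B` a noetherian domain with fraction field `F`,
`π ∈ B` prime, every maximal ideal `𝔪 ∋ π` locally generated by `π` and one more element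
(`RegularAlong π`, output O1 of b2), `K ⊆ B[1/π]` a field, `u ≡ 1 mod π`, `m ∣ ord_v u` at all
places `v` of `F/K`.  Then at every maximal ideal `𝔫 ∋ π` of `B` there is `σ ∈ F` with
`σ ^ m * u = c / s`, `c, s ∈ B ∖ 𝔫`, and `σ ≡ 1 mod π`. -/
theorem div_of_regularAlong (π : B) (hπ : Prime π)
    (hreg : ∀ 𝔪 : Ideal B, 𝔪.IsMaximal → π ∈ 𝔪 →
      ∃ t ∈ 𝔪, ∀ a ∈ 𝔪, ∃ s : B, s ∉ 𝔪 ∧ s * a ∈ Ideal.span {π, t})
    (hK : ∀ c : K, ∃ (a : B) (n : ℕ),
      algebraMap K F c * algebraMap B F π ^ n = algebraMap B F a)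
    (m : ℕ) (hm : 0 < m) (u : F)
    (hu1 : ∃ c d : B, ¬ π ∣ d ∧ (u - 1) * algebraMap B F d = algebraMap B F π * algebraMap B F c)
    (hdiv : ∀ v : Place K F, (m : ℤ) ∣ v.ord u)
    (𝔫 : Ideal B) (h𝔫 : 𝔫.IsMaximal) (hπ𝔫 : π ∈ 𝔫) :
    ∃ (σ : F) (c s : B), c ∉ 𝔫 ∧ s ∉ 𝔫 ∧ σ ^ m * u * algebraMap B F s = algebraMap B F c ∧
      ∃ c' d' : B, ¬ π ∣ d' ∧
        (σ - 1) * algebraMap B F d' = algebraMap B F π * algebraMap B F c' := by
  haveI : 𝔫.IsPrime := h𝔫.isPrime
  obtain ⟨t, ht, hreg'⟩ := hreg 𝔫 h𝔫 hπ𝔫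
  exact div_local_aux
    (S := Localization.subalgebra.ofField F 𝔫.primeCompl 𝔫.primeCompl_le_nonZeroDivisors)
    𝔫 π hπ hπ𝔫 t ht hreg' hK m hm u hu1 hdiv

/-- `div_of_regularAlong` with the divisibility hypothesis in valuation-subring form
(Mathlib-only statement). -/
theorem div_of_regularAlong_vs (π : B) (hπ : Prime π)
    (hreg : ∀ 𝔪 : Ideal B, 𝔪.IsMaximal → π ∈ 𝔪 →
      ∃ t ∈ 𝔪, ∀ a ∈ 𝔪, ∃ s : B, s ∉ 𝔪 ∧ s * a ∈ Ideal.span {π, t})
    (hK : ∀ c : K, ∃ (a : B) (n : ℕ),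
      algebraMap K F c * algebraMap B F π ^ n = algebraMap B F a)
    (m : ℕ) (hm : 0 < m) (u : F)
    (hu1 : ∃ c d : B, ¬ π ∣ d ∧ (u - 1) * algebraMap B F d = algebraMap B F π * algebraMap B F c)
    (hdiv : ∀ O : ValuationSubring F, (∀ c : K, algebraMap K F c ∈ O) →
      ∃ t : F, t ≠ 0 ∧ u * t ^ m ∈ O ∧ (u * t ^ m)⁻¹ ∈ O)
    (𝔫 : Ideal B) (h𝔫 : 𝔫.IsMaximal) (hπ𝔫 : π ∈ 𝔫) :
    ∃ (σ : F) (c s : B), c ∉ 𝔫 ∧ s ∉ 𝔫 ∧ σ ^ m * u * algebraMap B F s = algebraMap B F c ∧
      ∃ c' d' : B, ¬ π ∣ d' ∧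
        (σ - 1) * algebraMap B F d' = algebraMap B F π * algebraMap B F c' :=
  div_of_regularAlong π hπ hreg hK m hm u hu1
    (ord_dvd_of_valuationSubring m u hdiv) 𝔫 h𝔫 hπ𝔫

end Main

section Subalgebra

variable {R F K : Type*} [CommRing R] [Field F] [Algebra R F] [Field K] [Algebra K F]

/-- **The field `div` of `Fermat.Agent.S18.H513.ChartHyp`** (same shape, for a chart given as a
subalgebra `B ⊆ F`), from `RegularAlong w` on `B` and divisibility of the divisor of `u`. -/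
theorem chartHyp_div_of_regularAlong (w : R) (B : Subalgebra R F) [IsNoetherianRing B]
    [IsFractionRing B F] (hw : Prime (algebraMap R B w))
    (hreg : ∀ 𝔪 : Ideal B, 𝔪.IsMaximal → algebraMap R B w ∈ 𝔪 →
      ∃ t ∈ 𝔪, ∀ a ∈ 𝔪, ∃ s : B, s ∉ 𝔪 ∧ s * a ∈ Ideal.span {algebraMap R B w, t})
    (hK : ∀ c : K, ∃ (a : B) (n : ℕ),
      algebraMap K F c * algebraMap R F w ^ n = (a : F))
    (m : ℕ) (hm : 0 < m) (u : F)
    (hu1 : ∃ c d : B, ¬ algebraMap R B w ∣ d ∧ (u - 1) * (d : F) = algebraMap R F w * (c : F))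
    (hdiv : ∀ O : ValuationSubring F, (∀ c : K, algebraMap K F c ∈ O) →
      ∃ t : F, t ≠ 0 ∧ u * t ^ m ∈ O ∧ (u * t ^ m)⁻¹ ∈ O) :
    ∀ 𝔫 : Ideal B, 𝔫.IsMaximal → algebraMap R B w ∈ 𝔫 →
      ∃ (f : F) (c s : B), c ∉ 𝔫 ∧ s ∉ 𝔫 ∧ f ^ m * u * (s : F) = (c : F) := by
  intro 𝔫 h𝔫 hw𝔫
  obtain ⟨σ, c, s, hc, hs, h, -⟩ :=
    div_of_regularAlong_vs (B := B) (F := F) (K := K) (algebraMap R B w) hw hreg hK m hm u hu1
      hdiv 𝔫 h𝔫 hw𝔫
  exact ⟨σ, c, s, hc, hs, h⟩

end Subalgebra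

end Fermat.Agent.S18.H738
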